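import Mathlib
import Fermat.Agent.S48.Cheb.Defs
import Fermat.Agent.GR.G.Count
import Fermat.Agent.GR.G.CountFrob

/-!
# S48 / Cheb / Alg : Frobenius elements at the unramified primes of a Galois number field containing `ζ_m`
-/

set_option autoImplicit false

open NumberField
open scoped Pointwise

namespace Fermat.Agent.S48.Cheb

open Fermat.Agent.GR.G

variable (L : Type*) [Field L] [NumberField L] [IsGalois ℚ L]

omit [IsGalois ℚ L] in
theorem Frob_under {p : ℕ} (hp : p.Prime) {P : Ideal (𝓞 L)} (hP : P.IsPrime)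
    (hpP : (p : 𝓞 L) ∈ P) : P.under ℤ = Ideal.span {(p : ℤ)} := by
  have hp' : Prime (p : ℤ) := Nat.prime_iff_prime_int.mp hp
  have hlo : P.LiesOver (Ideal.span {(p : ℤ)}) :=
    (Ideal.liesOver_span_iff Ideal.IsPrime.ne_top' hp').mpr (by simpa using hpP)
  exact hlo.over.symm

omit [IsGalois ℚ L] in
theorem Frob_isArithFrobAt_iff {p : ℕ} (hp : p.Prime) {P : Ideal (𝓞 L)} (hP : P.IsPrime)
    (hpP : (p : 𝓞 L) ∈ P) (φ : L ≃ₐ[ℚ] L) : IsArithFrobAt ℤ φ P ↔ IsFrob L P p φ := by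
  constructor
  · intro h x
    have h1 := h x
    rw [Frob_under L hp hP hpP, Int.card_ideal_quot] at h1
    exact h1
  · intro h x
    rw [Frob_under L hp hP hpP, Int.card_ideal_quot]
    exact h x

theorem exists_isFrob (p : ℕ) (hp : p.Prime) (P : Ideal (𝓞 L)) (hP : P.IsPrime)
    (hpP : (p : 𝓞 L) ∈ P) : ∃ φ : L ≃ₐ[ℚ] L, IsFrob L P p φ := by
  have hfin : Finite (𝓞 L ⧸ P) := by
    apply Ideal.finiteQuotientOfFreeOfNeBot
    intro h
    rw [h] at hpP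
    have : (p : 𝓞 L) = 0 := by simpa using hpP
    exact hp.ne_zero (by exact_mod_cast this)
  obtain ⟨φ, hφ⟩ := IsArithFrobAt.exists_of_isInvariant ℤ (L ≃ₐ[ℚ] L) P
  exact ⟨φ, (Frob_isArithFrobAt_iff L hp hP hpP φ).1 hφ⟩

variable {L}

theorem IsFrob.zpowers_eq {p : ℕ} (hp : p.Prime) (hunr : ¬ (p : ℤ) ∣ NumberField.discr L)
    {P : Ideal (𝓞 L)} (hP : P.IsPrime) (hpP : (p : 𝓞 L) ∈ P) {φ : L ≃ₐ[ℚ] L}
    (hφ : IsFrob L P p φ) :
    Subgroup.zpowers φ = MulAction.stabilizer (L ≃ₐ[ℚ] L) P :=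
  zpowers_eq_stabilizer L p hp hunr P hP hpP φ hφ

/-- uniqueness at an unramified prime (the inertia group is trivial) -/
theorem IsFrob.unique {p : ℕ} (hp : p.Prime) (hunr : ¬ (p : ℤ) ∣ NumberField.discr L)
    {P : Ideal (𝓞 L)} (hP : P.IsPrime) (hpP : (p : 𝓞 L) ∈ P) {φ φ' : L ≃ₐ[ℚ] L}
    (hφ : IsFrob L P p φ) (hφ' : IsFrob L P p φ') : φ = φ' := by
  have h1 := IsArithFrobAt.mul_inv_mem_inertia ((Frob_isArithFrobAt_iff L hp hP hpP φ).2 hφ)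
    ((Frob_isArithFrobAt_iff L hp hP hpP φ').2 hφ')
  rw [count_inertia_eq_bot hp hunr P hpP, Subgroup.mem_bot] at h1
  exact mul_inv_eq_one.1 h1

/-- the Frobenius at `p ∤ m` acts on `μ_m` by `ζ ↦ ζ ^ p` -/
theorem IsFrob.autToPow_eq {m : ℕ} [NeZero m] {ζ : L} (hζ : IsPrimitiveRoot ζ m)
    {p : ℕ} (hp : p.Prime) (hpm : ¬ p ∣ m)
    {P : Ideal (𝓞 L)} (hP : P.IsPrime) (hpP : (p : 𝓞 L) ∈ P) {φ : L ≃ₐ[ℚ] L}
    (hφ : IsFrob L P p φ) :
    ((hζ.autToPow ℚ φ : (ZMod m)ˣ) : ZMod m) = (p : ZMod m) := by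
  have hm0 : 0 < m := Nat.pos_of_ne_zero (NeZero.ne m)
  have H := (Frob_isArithFrobAt_iff L hp hP hpP φ).2 hφ
  have hmP : ((m : ℕ) : 𝓞 L) ∉ P := by
    intro h
    have h1 : (m : ℤ) ∈ P.under ℤ := by
      rw [Ideal.under_def, Ideal.mem_comap]
      simpa using h
    rw [Frob_under L hp hP hpP, Ideal.mem_span_singleton] at h1
    exact hpm (by exact_mod_cast h1)
  have h2 := AlgHom.IsArithFrobAt.apply_of_pow_eq_one H (ζ := hζ.toInteger) (m := m)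
    hζ.toInteger_isPrimitiveRoot.pow_eq_one hmP
  rw [Frob_under L hp hP hpP, Int.card_ideal_quot] at h2
  have h3 : φ ζ = ζ ^ p := by
    have h4 := congrArg (fun x : 𝓞 L => (x : L)) h2
    have h5 : ((φ • hζ.toInteger : 𝓞 L) : L) = φ ζ := rfl
    rw [← h5]
    simpa using h4
  rw [← hζ.autToPow_spec ℚ φ] at h3
  have h5 : ((hζ.autToPow ℚ φ : (ZMod m)ˣ) : ZMod m).val ≡ p [MOD m] := by
    rw [pow_eq_pow_mod _ hζ.pow_eq_one, pow_eq_pow_mod p hζ.pow_eq_one] at h3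
    exact hζ.pow_inj (Nat.mod_lt _ hm0) (Nat.mod_lt _ hm0) h3
  have h6 := (ZMod.natCast_eq_natCast_iff _ _ _).2 h5
  rw [ZMod.natCast_zmod_val] at h6
  exact h6

end Fermat.Agent.S48.Cheb
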