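import Mathlib
import Fermat.Agent.S48.Cheb.Defs

/-!
# S48 / Cheb / Alg : orthogonality relations for the EVEN Dirichlet characters mod `m`
-/

set_option autoImplicit false

namespace Fermat.Agent.S48.Cheb

open Classical

variable {m : ℕ} [NeZero m]

/-- the finite set of the even characters -/
noncomputable def evenChars (m : ℕ) [NeZero m] : Finset (DirichletCharacter ℂ m) :=
  Finset.univ.filter fun χ => χ.Even

theorem mem_evenChars (χ : DirichletCharacter ℂ m) : χ ∈ evenChars m ↔ χ.Even := by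
  simp [evenChars]

theorem abs_reChi_le_one (χ : DirichletCharacter ℂ m) (p : ℕ) : |reChi χ p| ≤ 1 := by
  exact (Complex.abs_re_le_norm _).trans (χ.norm_le_one _)

/-- the complex orthogonality relation for the even characters. -/
theorem Char_sum_even (a : ZMod m) :
    ∑ χ ∈ evenChars m, χ a =
      (m.totient : ℂ) / 2 * ((if a = 1 then 1 else 0) + (if a = -1 then 1 else 0)) := by
  have h1 : ∀ χ : DirichletCharacter ℂ m, (if χ.Even then χ a else 0) = (χ a + χ (-a)) / 2 := by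
    intro χ
    by_cases hχ : χ.Even
    · rw [if_pos hχ, hχ.eval_neg]
      ring
    · have hodd : χ.Odd := χ.even_or_odd.resolve_left hχ
      rw [if_neg hχ, hodd.eval_neg]
      ring
  have h2 : (-a = 1) ↔ (a = -1) := neg_eq_iff_eq_neg
  rw [evenChars, Finset.sum_filter]
  simp only [h1]
  rw [← Finset.sum_div, Finset.sum_add_distrib]
  have e1 := DirichletCharacter.sum_characters_eq ℂ a
  have e2 := DirichletCharacter.sum_characters_eq ℂ (-a)
  have e1' : ∑ χ : DirichletCharacter ℂ m, χ a = if a = 1 then (m.totient : ℂ) else 0 := by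
    convert e1
  have e2' : ∑ χ : DirichletCharacter ℂ m, χ (-a) = if a = -1 then (m.totient : ℂ) else 0 := by
    simp only [h2] at e2
    convert e2
  rw [e1', e2']
  split_ifs <;> ring

theorem Char_re_sum_even (a : ZMod m) :
    ∑ χ ∈ evenChars m, (χ a).re =
      (m.totient : ℝ) / 2 * ((if a = 1 then 1 else 0) + (if a = -1 then 1 else 0)) := by
  have h := congrArg Complex.re (Char_sum_even a)
  rw [Complex.re_sum] at h
  rw [h]
  split_ifs <;> simp

theorem Char_two_re (χ : DirichletCharacter ℂ m) (τ : (ZMod m)ˣ) :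
    ((2 * (χ (τ : ZMod m)).re : ℝ) : ℂ) = χ (τ : ZMod m) + χ ((τ⁻¹ : (ZMod m)ˣ) : ZMod m) := by
  have h1 : χ (τ : ZMod m) * χ ((τ⁻¹ : (ZMod m)ˣ) : ZMod m) = 1 := by
    rw [← map_mul, Units.mul_inv, map_one]
  have h2 : χ ((τ⁻¹ : (ZMod m)ˣ) : ZMod m) = (χ (τ : ZMod m))⁻¹ := eq_inv_of_mul_eq_one_right h1
  rw [h2, Complex.inv_eq_conj (χ.unit_norm_eq_one τ), Complex.add_conj]

/-- (Ch1) -/
theorem sum_evenChars_reChi (p : ℕ) :
    ∑ χ ∈ evenChars m, reChi χ p = (m.totient : ℝ) / 2 * indPM m p := by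
  exact Char_re_sum_even (p : ZMod m)

/-- (Ch2) -/
theorem sum_evenChars_re_mul_reChi (τ : (ZMod m)ˣ) (p : ℕ) :
    ∑ χ ∈ evenChars m, (2 * (χ (τ : ZMod m)).re) * reChi χ p = (m.totient : ℝ) / 2 * ind τ p := by
  have h1 : ∀ χ : DirichletCharacter ℂ m, (2 * (χ (τ : ZMod m)).re) * reChi χ p =
      (χ ((τ : ZMod m) * (p : ZMod m))).re +
        (χ (((τ⁻¹ : (ZMod m)ˣ) : ZMod m) * (p : ZMod m))).re := by
    intro χ
    rw [← Complex.add_re, map_mul, map_mul, ← add_mul, ← Char_two_re, Complex.re_ofReal_mul]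
    rfl
  simp only [h1]
  rw [Finset.sum_add_distrib, Char_re_sum_even, Char_re_sum_even, ← mul_add, ind]
  have e1 : ((τ : ZMod m) * (p : ZMod m) = 1) ↔ (p : ZMod m) = ((τ⁻¹ : (ZMod m)ˣ) : ZMod m) := by
    rw [← Units.eq_inv_mul_iff_mul_eq, mul_one]
  have e2 : ((τ : ZMod m) * (p : ZMod m) = -1) ↔
      (p : ZMod m) = -((τ⁻¹ : (ZMod m)ˣ) : ZMod m) := by
    rw [← Units.eq_inv_mul_iff_mul_eq, mul_neg, mul_one]
  have e3 : (((τ⁻¹ : (ZMod m)ˣ) : ZMod m) * (p : ZMod m) = 1) ↔ (p : ZMod m) = (τ : ZMod m) := by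
    rw [Units.inv_mul_eq_iff_eq_mul, mul_one]
  have e4 : (((τ⁻¹ : (ZMod m)ˣ) : ZMod m) * (p : ZMod m) = -1) ↔
      (p : ZMod m) = -(τ : ZMod m) := by
    rw [Units.inv_mul_eq_iff_eq_mul, mul_neg, mul_one]
  simp only [e1, e2, e3, e4]
  ring

end Fermat.Agent.S48.Cheb
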