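import Mathlib

/-!
# S48 / Cheb / Alg : the number of Dirichlet characters mod `m` which are trivial on a subgroup of `(ℤ/m)ˣ`
-/

set_option autoImplicit false

namespace Fermat.Agent.S48.Cheb

open Classical

variable {m : ℕ} [NeZero m]

/-- (Ch3) the number of characters trivial on a subgroup `H` of `(ℤ/m)ˣ` -/
theorem card_chars_trivial_on (H : Subgroup (ZMod m)ˣ) :
    (Finset.univ.filter fun χ : DirichletCharacter ℂ m =>
      ∀ h ∈ H, χ ((h : (ZMod m)ˣ) : ZMod m) = 1).card * Nat.card H = m.totient := by
  have h1 : (Finset.univ.filter fun χ : DirichletCharacter ℂ m =>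
      ∀ h ∈ H, χ ((h : (ZMod m)ˣ) : ZMod m) = 1).card =
      Nat.card (MulChar.subgroupOrderIsoSubgroupMulChar (ZMod m) ℂ H).ofDual := by
    rw [Nat.card_eq_fintype_card, Fintype.card_subtype]
    congr 1
    ext χ
    simp only [Finset.mem_filter, Finset.mem_univ, true_and]
    exact MulChar.mem_subgroupOrderIsoSubgroupMulChar_iff.symm
  rw [h1, MulChar.card_subgroupOrderIsoSubgroupMulChar,
    ← Subgroup.card_eq_card_quotient_mul_card_subgroup, Nat.card_eq_fintype_card,
    ZMod.card_units_eq_totient]

end Fermat.Agent.S48.Cheb
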