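import Mathlib
import Fermat.Agent.S48.Cheb.Alg.Frob
import Fermat.Agent.GR.G.Finite

/-!
# S48 / Cheb / Alg : an ideal `𝔟` of the fixed field of `Γ` with `χ(N𝔟) ≠ 1`
-/

set_option autoImplicit false

open NumberField
open scoped Pointwise

namespace Fermat.Agent.S48.Cheb

open Fermat.Agent.GR.G

variable {L : Type*} [Field L] [NumberField L] [IsGalois ℚ L]

theorem exists_ideal_chiN_ne_one {m : ℕ} [NeZero m] {ζ : L} (hζ : IsPrimitiveRoot ζ m)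
    (Γ : Subgroup (L ≃ₐ[ℚ] L)) (χ : DirichletCharacter ℂ m) (γ₀ : L ≃ₐ[ℚ] L) (hγ₀ : γ₀ ∈ Γ)
    (hne : χ ((hζ.autToPow ℚ γ₀ : (ZMod m)ˣ) : ZMod m) ≠ 1) :
    ∃ 𝔟 : Ideal (𝓞 (IntermediateField.fixedField Γ)),
      (Ideal.absNorm 𝔟).Coprime m ∧ chiN (IntermediateField.fixedField Γ) χ 𝔟 ≠ 1 := by
  obtain ⟨p, hp, hpS, hunr, P, hP, hpP, hstab⟩ :=
    exists_stabilizer_eq_zpowers L m.primeFactors γ₀
  have hpm : ¬ p ∣ m := fun hd => hpS (Nat.mem_primeFactors.2 ⟨hp, hd, NeZero.ne m⟩)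
  have hle : MulAction.stabilizer (L ≃ₐ[ℚ] L) P ≤ Γ := by
    rw [hstab, Subgroup.zpowers_le]
    exact hγ₀
  have hN : Ideal.absNorm (P.under (𝓞 (IntermediateField.fixedField Γ))) = p :=
    (count_absNorm_under_eq_iff hp hunr Γ P hpP).2 hle
  refine ⟨P.under _, ?_, ?_⟩
  · rw [hN]
    exact (Nat.Prime.coprime_iff_not_dvd hp).2 hpm
  · rw [chiN, hN]
    intro h1
    obtain ⟨φ, hφ⟩ := exists_isFrob L p hp P hP hpP
    have hz : Subgroup.zpowers φ = Subgroup.zpowers γ₀ :=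
      (hφ.zpowers_eq hp hunr hP hpP).trans hstab
    have hmem : γ₀ ∈ Subgroup.zpowers φ := hz ▸ Subgroup.mem_zpowers γ₀
    obtain ⟨i, rfl⟩ := Subgroup.mem_zpowers_iff.1 hmem
    apply hne
    have h2 : χ.toUnitHom (hζ.autToPow ℚ φ) = 1 := by
      ext
      rw [MulChar.coe_toUnitHom, hφ.autToPow_eq hζ hp hpm hP hpP, h1]
      rfl
    have h3 : χ.toUnitHom ((hζ.autToPow ℚ φ) ^ i) = 1 := by
      rw [map_zpow, h2, one_zpow]
    have h4 := congrArg Units.val h3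
    rw [MulChar.coe_toUnitHom] at h4
    rw [map_zpow]
    exact h4

end Fermat.Agent.S48.Cheb
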