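import Mathlib
import Fermat.Agent.S48.Cheb.Defs
import Fermat.Agent.GR.G.Finite

/-!
# S48 / Cheb / Alg : `count_fixedField` with a bound for the constant `d`
-/

set_option autoImplicit false

open NumberField
open scoped Pointwise

namespace Fermat.Agent.S48.Cheb

open Fermat.Agent.GR.G

variable (L : Type*) [Field L] [NumberField L] [IsGalois ℚ L]

/-- the fixed field of the whole group (`= ℚ`) has at most one ideal of norm `p`. -/
theorem CountD_cnt_top_le (p : ℕ) (hp : p.Prime) :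
    cnt (IntermediateField.fixedField (⊤ : Subgroup (L ≃ₐ[ℚ] L))) p ≤ 1 := by
  unfold cnt
  have hGal := count_isGaloisGroup L (⊤ : Subgroup (L ≃ₐ[ℚ] L))
  have hpp := count_span_isPrime hp
  have hex : ∀ I : Ideal (𝓞 (IntermediateField.fixedField (⊤ : Subgroup (L ≃ₐ[ℚ] L)))),
      Ideal.absNorm I = p → ∃ P : Ideal (𝓞 L), P.IsPrime ∧ (p : 𝓞 L) ∈ P ∧
        P.under (𝓞 (IntermediateField.fixedField (⊤ : Subgroup (L ≃ₐ[ℚ] L)))) = I := by
    intro I hI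
    have hIp : I.IsPrime := Ideal.isPrime_of_irreducible_absNorm (hI ▸ hp)
    have hI0 : I ≠ ⊥ := by
      rintro rfl
      rw [Ideal.absNorm_bot] at hI
      exact hp.ne_zero hI.symm
    have hIm : I.IsMaximal := hIp.isMaximal hI0
    obtain ⟨P, hPm, hPI⟩ := Ideal.exists_maximal_ideal_liesOver_of_isIntegral (S := 𝓞 L) I
    have hund : P.under (𝓞 (IntermediateField.fixedField (⊤ : Subgroup (L ≃ₐ[ℚ] L)))) = I :=
      hPI.over.symm
    have hpI : (p : 𝓞 (IntermediateField.fixedField (⊤ : Subgroup (L ≃ₐ[ℚ] L)))) ∈ I :=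
      hI ▸ Ideal.absNorm_mem I
    have hpP : (p : 𝓞 L) ∈ P := by
      rw [← hund, Ideal.under_def, Ideal.mem_comap] at hpI
      simpa using hpI
    exact ⟨P, hPm.isPrime, hpP, hund⟩
  have hsub : Subsingleton {I : Ideal (𝓞 (IntermediateField.fixedField
      (⊤ : Subgroup (L ≃ₐ[ℚ] L)))) // Ideal.absNorm I = p} := by
    refine ⟨fun I J => Subtype.ext ?_⟩
    obtain ⟨P, hP, hpP, hPI⟩ := hex I.1 I.2
    obtain ⟨P', hP', hpP', hPJ⟩ := hex J.1 J.2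
    have h1 := count_liesOver hp P hpP
    have h2 := count_liesOver hp P' hpP'
    have h3 : P.under ℤ = P'.under ℤ := by rw [← h1.over, ← h2.over]
    obtain ⟨g, hg⟩ := Algebra.IsInvariant.exists_smul_of_under_eq ℤ (𝓞 L) (L ≃ₐ[ℚ] L) P P' h3
    rw [← hPI, ← hPJ, hg]
    exact (Ideal.under_smul (𝓞 (IntermediateField.fixedField (⊤ : Subgroup (L ≃ₐ[ℚ] L)))) P
      (⟨g, Subgroup.mem_top g⟩ : (⊤ : Subgroup (L ≃ₐ[ℚ] L)))).symm
  exact Finite.card_le_one_iff_subsingleton.2 hsub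

/-- `count_fixedField` together with `d * #{P ∣ p} ≤ [L : ℚ]`. -/
theorem exists_count (p : ℕ) (hp : p.Prime) (hunr : ¬ (p : ℤ) ∣ NumberField.discr L) :
    ∃ d : ℕ, d * Nat.card {P : Ideal (𝓞 L) // P.IsPrime ∧ (p : 𝓞 L) ∈ P} ≤
        Nat.card (L ≃ₐ[ℚ] L) ∧
      ∀ H : Subgroup (L ≃ₐ[ℚ] L),
        cnt (IntermediateField.fixedField H) p * Nat.card H =
          d * Nat.card {P : Ideal (𝓞 L) // P.IsPrime ∧ (p : 𝓞 L) ∈ P ∧
            MulAction.stabilizer (L ≃ₐ[ℚ] L) P ≤ H} := by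
  obtain ⟨d, hd⟩ := count_fixedField L p hp hunr
  refine ⟨d, ?_, hd⟩
  have h1 := hd ⊤
  have h2 : Nat.card {P : Ideal (𝓞 L) // P.IsPrime ∧ (p : 𝓞 L) ∈ P ∧
      MulAction.stabilizer (L ≃ₐ[ℚ] L) P ≤ ⊤} =
      Nat.card {P : Ideal (𝓞 L) // P.IsPrime ∧ (p : 𝓞 L) ∈ P} := by
    refine Nat.card_congr (Equiv.subtypeEquivRight fun P => ?_)
    simp
  rw [h2, Subgroup.card_top] at h1
  rw [← h1]
  calc cnt (IntermediateField.fixedField (⊤ : Subgroup (L ≃ₐ[ℚ] L))) p * Nat.card (L ≃ₐ[ℚ] L)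
      ≤ 1 * Nat.card (L ≃ₐ[ℚ] L) := Nat.mul_le_mul_right _ (CountD_cnt_top_le L p hp)
    _ = Nat.card (L ≃ₐ[ℚ] L) := one_mul _

end Fermat.Agent.S48.Cheb
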