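import Mathlib
import Fermat.Agent.S48.Cheb.Alg.Frob
import Fermat.Agent.S48.Cheb.Alg.CountD

/-!
# S48 / Cheb / Alg : the family of the Frobenius elements above an unramified prime `p ∤ m`, and the counting formula

This is the ONLY arithmetic input of the files `Core/*`.
-/

set_option autoImplicit false

open NumberField
open scoped Pointwise

namespace Fermat.Agent.S48.Cheb

open Fermat.Agent.GR.G

variable (L : Type*) [Field L] [NumberField L] [IsGalois ℚ L]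

variable {L}

/-- the family `fr i` (`i < n`) of the Frobenius elements of the `n` primes above `p`. -/
theorem exists_frobFamily {m : ℕ} [NeZero m] {ζ : L} (hζ : IsPrimitiveRoot ζ m)
    (p : ℕ) (hp : p.Prime) (hunr : ¬ (p : ℤ) ∣ NumberField.discr L) (hpm : ¬ p ∣ m) :
    ∃ (d n : ℕ) (fr : Fin n → (L ≃ₐ[ℚ] L)),
      d * n ≤ Nat.card (L ≃ₐ[ℚ] L) ∧
      (∀ i, ∃ P : Ideal (𝓞 L), P.IsPrime ∧ (p : 𝓞 L) ∈ P ∧ IsFrob L P p (fr i)) ∧
      (∀ i, ((hζ.autToPow ℚ (fr i) : (ZMod m)ˣ) : ZMod m) = (p : ZMod m)) ∧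
      ∀ H : Subgroup (L ≃ₐ[ℚ] L),
        cnt (IntermediateField.fixedField H) p * Nat.card H =
          d * Nat.card {i : Fin n // fr i ∈ H} := by
  classical
  obtain ⟨d, hd, hcount⟩ := exists_count L p hp hunr
  have hfin := finite_primes_containing L p hp
  let e : {P : Ideal (𝓞 L) // P.IsPrime ∧ (p : 𝓞 L) ∈ P} ≃
      Fin (Nat.card {P : Ideal (𝓞 L) // P.IsPrime ∧ (p : 𝓞 L) ∈ P}) := Finite.equivFin _
  choose φ hφ using fun P : {P : Ideal (𝓞 L) // P.IsPrime ∧ (p : 𝓞 L) ∈ P} =>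
    exists_isFrob L p hp P.1 P.2.1 P.2.2
  refine ⟨d, Nat.card {P : Ideal (𝓞 L) // P.IsPrime ∧ (p : 𝓞 L) ∈ P}, fun i => φ (e.symm i), hd,
    fun i => ⟨(e.symm i).1, (e.symm i).2.1, (e.symm i).2.2, hφ _⟩,
    fun i => (hφ (e.symm i)).autToPow_eq hζ hp hpm (e.symm i).2.1 (e.symm i).2.2, fun H => ?_⟩
  rw [hcount H]
  congr 1
  refine Nat.card_congr ?_
  have key : ∀ P : {P : Ideal (𝓞 L) // P.IsPrime ∧ (p : 𝓞 L) ∈ P},
      MulAction.stabilizer (L ≃ₐ[ℚ] L) P.1 ≤ H ↔ φ P ∈ H := fun P => by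
    rw [← (hφ P).zpowers_eq hp hunr P.2.1 P.2.2, Subgroup.zpowers_le]
  exact
    { toFun := fun P => ⟨e ⟨P.1, P.2.1, P.2.2.1⟩, by
        show φ (e.symm (e ⟨P.1, P.2.1, P.2.2.1⟩)) ∈ H
        rw [Equiv.symm_apply_apply]
        exact (key ⟨P.1, P.2.1, P.2.2.1⟩).1 P.2.2.2⟩
      invFun := fun i => ⟨(e.symm i.1).1, (e.symm i.1).2.1, (e.symm i.1).2.2, (key _).2 i.2⟩
      left_inv := fun P => by simp
      right_inv := fun i => by simp }

end Fermat.Agent.S48.Cheb
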