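import Mathlib
import Fermat.Agent.S48.Cheb.Alg.Family

/-!
# S48 / Cheb / Alg : pointwise identities for `cnt (fixedField Γ) p`, `p` unramified, `p ∤ m`
-/

set_option autoImplicit false

open NumberField
open scoped Pointwise

namespace Fermat.Agent.S48.Cheb

open Fermat.Agent.GR.G

variable {L : Type*} [Field L] [NumberField L] [IsGalois ℚ L]
  {m : ℕ} [NeZero m] {ζ : L} (hζ : IsPrimitiveRoot ζ m)

/-- (P1) a prime having a degree one prime in the fixed field of `Γ` lies in `κ(Γ)` mod `m` -/
theorem exists_mem_autToPow_eq_of_cnt_ne_zero (Γ : Subgroup (L ≃ₐ[ℚ] L))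
    (p : ℕ) (hp : p.Prime) (hunr : ¬ (p : ℤ) ∣ NumberField.discr L) (hpm : ¬ p ∣ m)
    (h : cnt (IntermediateField.fixedField Γ) p ≠ 0) :
    ∃ g ∈ Γ, ((hζ.autToPow ℚ g : (ZMod m)ˣ) : ZMod m) = (p : ZMod m) := by
  obtain ⟨d, n, fr, -, -, hκ, hcnt⟩ := exists_frobFamily hζ p hp hunr hpm
  have h1 := hcnt Γ
  have h2 : Nat.card Γ ≠ 0 := Nat.card_pos.ne'
  have h3 : Nat.card {i : Fin n // fr i ∈ Γ} ≠ 0 := by
    intro h0
    rw [h0, mul_zero] at h1
    exact (mul_ne_zero h h2) h1
  have h4 : Nonempty {i : Fin n // fr i ∈ Γ} := by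
    by_contra hne
    rw [not_nonempty_iff] at hne
    exact h3 Nat.card_of_isEmpty
  obtain ⟨i, hi⟩ := h4
  exact ⟨fr i, hi, hκ i⟩

omit [NeZero m] in
lemma Point_one_ne_neg_one (hm2 : 2 < m) : (1 : ZMod m) ≠ -1 := by
  intro h
  have h2 : ((2 : ℕ) : ZMod m) = 0 := by
    have : (1 : ZMod m) + 1 = 0 := by
      nth_rewrite 1 [h]
      ring
    push_cast
    linear_combination this
  rw [ZMod.natCast_eq_zero_iff] at h2
  exact absurd (Nat.le_of_dvd (by norm_num) h2) (by omega)

/-- (P2) comparison of the fixed fields of `Γ` and of `{1, z}` -/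
theorem two_mul_cnt_zpowers (hm2 : 2 < m) (Γ : Subgroup (L ≃ₐ[ℚ] L))
    (hinj : Set.InjOn (hζ.autToPow ℚ) (Γ : Set (L ≃ₐ[ℚ] L)))
    (z : L ≃ₐ[ℚ] L) (hzΓ : z ∈ Γ) (hz : hζ.autToPow ℚ z = -1)
    (p : ℕ) (hp : p.Prime) (hunr : ¬ (p : ℤ) ∣ NumberField.discr L) (hpm : ¬ p ∣ m) :
    2 * (cnt (IntermediateField.fixedField (Subgroup.zpowers z)) p : ℝ) =
      (Nat.card Γ : ℝ) * (indPM m p * (cnt (IntermediateField.fixedField Γ) p : ℝ)) := by
  obtain ⟨d, n, fr, -, -, hκ, hcnt⟩ := exists_frobFamily hζ p hp hunr hpm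
  have hne := Point_one_ne_neg_one hm2
  have hz1 : z ≠ 1 := by
    rintro rfl
    rw [map_one] at hz
    exact hne (by simpa using congrArg (Units.val) hz)
  have hzz : z ^ 2 = 1 := by
    apply hinj (Γ.pow_mem hzΓ 2) Γ.one_mem
    rw [map_pow, hz, map_one]
    simp
  have hcard : Nat.card (Subgroup.zpowers z) = 2 := by
    rw [Nat.card_zpowers]
    exact orderOf_eq_prime hzz hz1
  have hmem : ∀ g, g ∈ Subgroup.zpowers z → g = 1 ∨ g = z := by
    intro g hg
    obtain ⟨k, rfl⟩ := Subgroup.mem_zpowers_iff.1 hg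
    rcases Int.even_or_odd' k with ⟨j, rfl | rfl⟩
    · left
      rw [zpow_mul, zpow_ofNat, hzz, one_zpow]
    · right
      rw [zpow_add, zpow_mul, zpow_ofNat, hzz, one_zpow, one_mul, zpow_one]
  have hA := hcnt Γ
  have hB := hcnt (Subgroup.zpowers z)
  rw [hcard] at hB
  by_cases hp1 : (p : ZMod m) = 1 ∨ (p : ZMod m) = -1
  · have hind : indPM m p = 1 := by
      unfold indPM
      rcases hp1 with h | h
      · rw [if_pos h, if_neg (by rw [h]; exact hne)]
        norm_num
      · rw [if_pos h, if_neg (by rw [h]; exact hne.symm)]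
        norm_num
    have hiff : ∀ i, fr i ∈ Γ ↔ fr i ∈ Subgroup.zpowers z := by
      intro i
      constructor
      · intro hi
        rcases hp1 with h | h
        · have : fr i = 1 := by
            apply hinj hi Γ.one_mem
            rw [map_one]
            apply Units.ext
            rw [hκ i, h, Units.val_one]
          rw [this]
          exact Subgroup.one_mem _
        · have : fr i = z := by
            apply hinj hi hzΓ
            rw [hz]
            apply Units.ext
            rw [hκ i, h, Units.val_neg, Units.val_one]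
          rw [this]
          exact Subgroup.mem_zpowers z
      · intro hi
        exact (Subgroup.zpowers_le.2 hzΓ) hi
    have hcc : Nat.card {i : Fin n // fr i ∈ Γ} =
        Nat.card {i : Fin n // fr i ∈ Subgroup.zpowers z} :=
      Nat.card_congr (Equiv.subtypeEquivRight hiff)
    rw [hcc, ← hB] at hA
    rw [hind, one_mul]
    have : ((cnt (IntermediateField.fixedField Γ) p * Nat.card Γ : ℕ) : ℝ) =
        ((cnt (IntermediateField.fixedField (Subgroup.zpowers z)) p * 2 : ℕ) : ℝ) := by
      rw [hA]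
    push_cast at this
    linear_combination -this
  · have hind : indPM m p = 0 := by
      unfold indPM
      rw [not_or] at hp1
      rw [if_neg hp1.1, if_neg hp1.2]
      norm_num
    have hemp : IsEmpty {i : Fin n // fr i ∈ Subgroup.zpowers z} := by
      refine ⟨fun ⟨i, hi⟩ => hp1 ?_⟩
      rcases hmem _ hi with h | h
      · left
        rw [← hκ i, h, map_one, Units.val_one]
      · right
        rw [← hκ i, h, hz, Units.val_neg, Units.val_one]
    rw [Nat.card_of_isEmpty, mul_zero] at hB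
    have h0 : cnt (IntermediateField.fixedField (Subgroup.zpowers z)) p = 0 := by
      rcases Nat.mul_eq_zero.1 hB with h | h
      · exact h
      · omega
    rw [hind, h0]
    simp

end Fermat.Agent.S48.Cheb
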